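import Fermat.Agent.GE.Tors.Count

/-!
# EC-TORS (6): corollaries of `#E[n] = n²`

* `card_torsionBy` : `Nat.card (Submodule.torsionBy ℤ W.Point n) = n ^ 2`;
* `exists_addOrderOf_eq_prime_pow` : a point of exact order `ℓ ^ k`.
-/

set_option autoImplicit false

namespace Fermat.Agent.GE.Tors

open WeierstrassCurve

universe u

variable {K : Type u} [Field K] [IsAlgClosed K] [CharZero K] [DecidableEq K]
  {W : WeierstrassCurve K}

/-- `Submodule.torsionBy` form of `card_torsion`. -/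
theorem card_torsionBy (hΔ : W.Δ ≠ 0) (n : ℕ) (hn : 1 ≤ n) :
    Nat.card (Submodule.torsionBy ℤ W.toAffine.Point (n : ℤ)) = n ^ 2 := by
  rw [← card_torsion hΔ n hn]
  refine Nat.card_congr (Equiv.subtypeEquivRight fun P => ?_)
  rw [Submodule.mem_torsionBy_iff, natCast_zsmul]

omit [IsAlgClosed K] in
theorem finite_torsionBy (hΔ : W.Δ ≠ 0) (n : ℕ) (hn : 1 ≤ n) :
    Finite (Submodule.torsionBy ℤ W.toAffine.Point (n : ℤ)) := by
  have := finite_torsion hΔ n hn
  have e : {P : W.toAffine.Point // n • P = 0} ≃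
      Submodule.torsionBy ℤ W.toAffine.Point (n : ℤ) :=
    Equiv.subtypeEquivRight fun P => by rw [Submodule.mem_torsionBy_iff, natCast_zsmul]
  exact Finite.of_equiv _ e

/-- There is a point of exact order `ℓ ^ k`. -/
theorem exists_addOrderOf_eq_prime_pow (hΔ : W.Δ ≠ 0) {ℓ : ℕ} (hℓ : ℓ.Prime) (k : ℕ) :
    ∃ P : W.toAffine.Point, addOrderOf P = ℓ ^ k := by
  rcases Nat.eq_zero_or_pos k with rfl | hk
  · exact ⟨0, by simp⟩
  obtain ⟨j, rfl⟩ : ∃ j, k = j + 1 := ⟨k - 1, by omega⟩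
  have h1 : 1 ≤ ℓ ^ (j + 1) := Nat.one_le_pow _ _ hℓ.pos
  have h2 : 1 ≤ ℓ ^ j := Nat.one_le_pow _ _ hℓ.pos
  by_contra hne
  simp only [not_exists] at hne
  -- every point killed by `ℓ^(j+1)` is killed by `ℓ^j`
  have hall : ∀ P : W.toAffine.Point, ℓ ^ (j + 1) • P = 0 → ℓ ^ j • P = 0 := by
    intro P hP
    have hdvd : addOrderOf P ∣ ℓ ^ (j + 1) := addOrderOf_dvd_of_nsmul_eq_zero hP
    obtain ⟨i, hi, hi'⟩ := (Nat.dvd_prime_pow hℓ).mp hdvd
    have hi2 : i ≤ j := by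
      rcases Nat.lt_or_ge j i with hlt | hge
      · exact absurd (by rw [hi']; congr 1; omega) (hne P)
      · exact hge
    have : addOrderOf P ∣ ℓ ^ j := by rw [hi']; exact pow_dvd_pow ℓ hi2
    exact addOrderOf_dvd_iff_nsmul_eq_zero.mp this
  have hcard : Nat.card {P : W.toAffine.Point // ℓ ^ (j + 1) • P = 0} =
      Nat.card {P : W.toAffine.Point // ℓ ^ j • P = 0} := by
    refine Nat.card_congr (Equiv.subtypeEquivRight fun P => ⟨hall P, fun h => ?_⟩)
    rw [pow_succ, mul_comm, mul_smul, h, smul_zero]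
  rw [card_torsion hΔ _ h1, card_torsion hΔ _ h2] at hcard
  have hlt : ℓ ^ j < ℓ ^ (j + 1) := Nat.pow_lt_pow_right hℓ.one_lt (by omega)
  have := Nat.pow_lt_pow_left hlt (two_ne_zero)
  omega

end Fermat.Agent.GE.Tors
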