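import Fermat.Agent.S13.DP.Key

/-!
# EC-TORS (3): the division-polynomial criterion for ALL `n ≥ 1`

From the T13 pointwise theory (`DP/Ward.lean`, `DivKey.lean`, `DivPeriod.lean`):

* `xc_nsmul_mul_ΨSq` : if `j • Q ≠ 0` for `0 < j ≤ n` then `ΨSq_n(x_Q) ≠ 0` and
  `x(n • Q) * ΨSq_n(x_Q) = Φ_n(x_Q)` (any field);
* `nsmul_eq_zero_iff_ΨSq` : in characteristic zero with `Δ ≠ 0`, for every `n ≥ 1`:
  `n • (x, y) = 0 ↔ ΨSq_n(x) = 0`;
* `isCoprime_Φ_ΨSq` : `Φ_n` and `ΨSq_n` have no common root.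
-/

set_option autoImplicit false

namespace Fermat.Agent.GE.Tors

open WeierstrassCurve Polynomial
open Fermat.Agent.S13

universe u

section anyField

variable {K : Type*} [Field K] [DecidableEq K] {W : Affine K}

theorem sQ_sq {Q : W.Point} (hQ : Q ≠ 0) (j : ℤ) :
    DP.sQ Q j ^ 2 = (W.ΨSq j).eval (DP.xc Q) := by
  have hη := DP.eta_sq' hQ
  rw [DP.sQ, DP.sq, ΨSq, mul_pow, eval_mul, eval_pow]
  split_ifs
  · rw [hη]
  · simp

theorem sQ_succ_mul_pred {Q : W.Point} (hQ : Q ≠ 0) (j : ℤ) :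
    DP.sQ Q (j + 1) * DP.sQ Q (j - 1) =
      (W.preΨ (j + 1) * W.preΨ (j - 1) * if Even j then 1 else W.Ψ₂Sq).eval (DP.xc Q) := by
  have hη := DP.eta_sq' hQ
  rw [DP.sQ, DP.sQ, DP.sq, DP.sq, eval_mul, eval_mul]
  by_cases hj : Even j
  · have h1 : ¬ Even (j + 1) := by simpa [Int.even_add_one] using hj
    have h2 : ¬ Even (j - 1) := by simpa [Int.even_sub_one] using hj
    rw [if_neg h1, if_neg h2, if_pos hj]; simp
  · have h1 : Even (j + 1) := by simpa [Int.even_add_one] using hj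
    have h2 : Even (j - 1) := by simpa [Int.even_sub_one] using hj
    rw [if_pos h1, if_pos h2, if_neg hj, ← hη]; ring

/-- The multiplication-by-`n` formula for the `x`-coordinate, `Φ_n / ΨSq_n` form. -/
theorem xc_nsmul_mul_ΨSq {Q : W.Point} (hQ : Q ≠ 0) (n : ℕ) (hn : 0 < n)
    (hmul : ∀ j : ℕ, 0 < j → j ≤ n → j • Q ≠ 0) :
    (W.ΨSq n).eval (DP.xc Q) ≠ 0 ∧
      DP.xc (n • Q) * (W.ΨSq n).eval (DP.xc Q) = (W.Φ n).eval (DP.xc Q) := by
  have hmulZ : ∀ j : ℤ, 0 < j → j ≤ (n : ℕ) → j • Q ≠ 0 := by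
    intro j hj0 hjn
    obtain ⟨k, rfl⟩ := Int.eq_ofNat_of_zero_le hj0.le
    rw [natCast_zsmul]
    exact hmul k (by exact_mod_cast hj0) (by exact_mod_cast hjn)
  have hne := DP.sQ_ne_zero hQ n hmulZ (n : ℤ) (by exact_mod_cast hn) le_rfl
  have hrel := DP.xc_sub_Xm_mul hQ n hmulZ (n : ℤ) (by exact_mod_cast hn) le_rfl
  rw [sQ_succ_mul_pred hQ, sQ_sq hQ, DP.Xm, natCast_zsmul] at hrel
  refine ⟨?_, ?_⟩
  · rw [← sQ_sq hQ]; exact pow_ne_zero 2 hne
  · rw [WeierstrassCurve.Φ, eval_sub, eval_mul, eval_X, ← hrel]; ring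

end anyField

section charZero

variable {K : Type u} [Field K] [DecidableEq K] [CharZero K] (W : WeierstrassCurve K)

omit [CharZero K] in
/-- the value `ψ_n(P)` squared is `ΨSq_n(x)`. -/
theorem div_sq_sq {x y : K} (h : W.toAffine.Nonsingular x y) (n : ℤ) :
    Div.sq W x y n ^ 2 = (W.ΨSq n).eval x := by
  rw [DP.KeyBridge.div_sq_eq_sQ W h, sQ_sq (Affine.Point.some_ne_zero h)]
  rfl

/-- **General key**: `n • P = 0 ↔ ψ_n(P) = 0` for every `n ≥ 1`. -/
theorem nsmul_eq_zero_iff_sq (hΔ : W.Δ ≠ 0) (n : ℕ) (hn : 0 < n) {x y : K}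
    (h : W.toAffine.Nonsingular x y) :
    n • (Affine.Point.some x y h) = 0 ↔ Div.sq W x y n = 0 := by
  have hDP2 := DP.KeyBridge.dp2Statement.{u}
  set P : W.toAffine.Point := Affine.Point.some x y h with hP
  have hP0 : P ≠ 0 := Affine.Point.some_ne_zero h
  have hdp := hDP2 K W x y h
  by_cases hex : ∃ j : ℕ, 0 < j ∧ j • P = 0
  · classical
    have hL : 0 < Nat.find hex ∧ Nat.find hex • P = 0 := Nat.find_spec hex
    have hLmin : ∀ j : ℕ, 0 < j → j < Nat.find hex → j • P ≠ 0 := by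
      intro j hj0 hjL hjP
      exact Nat.find_min hex hjL ⟨hj0, hjP⟩
    generalize Nat.find hex = L at hL hLmin
    have hL2 : 2 ≤ L := by
      rcases Nat.lt_or_ge L 2 with h1 | h1
      · have h1' : L = 1 := by omega
        have := hL.2
        rw [h1', one_smul] at this
        exact absurd this hP0
      · exact h1
    have hsL : Div.sq W x y L = 0 := ((hdp L hLmin).1).mpr hL.2
    have hsj : ∀ j : ℕ, 0 < j → j < L → Div.sq W x y j ≠ 0 := by
      intro j hj0 hjL h0
      have := ((hdp j (fun i hi0 hij => hLmin i hi0 (by omega))).1).mp h0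
      exact hLmin j hj0 hjL this
    -- order side
    have hord : n • P = 0 ↔ L ∣ n := by
      constructor
      · intro hnP
        have hr : (n % L) • P = 0 := by
          have h1 : n • P = (L * (n / L)) • P + (n % L) • P := by
            rw [← add_smul, Nat.div_add_mod]
          rw [mul_smul, smul_comm, hL.2, smul_zero, zero_add] at h1
          rw [← h1]; exact hnP
        by_contra hdvd
        have hpos : 0 < n % L := Nat.pos_of_ne_zero fun h0 => hdvd (Nat.dvd_of_mod_eq_zero h0)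
        exact hLmin _ hpos (Nat.mod_lt _ (by omega)) hr
      · rintro ⟨k, rfl⟩
        rw [mul_smul, smul_comm, hL.2, smul_zero]
    -- period side
    have hper : Div.sq W x y n = 0 ↔ (L : ℤ) ∣ (n : ℤ) := by
      by_cases hL2' : L = 2
      · subst hL2'
        have hη : 2 * y + W.a₁ * x + W.a₃ = 0 := by
          have := hsL
          simpa using this
        have hc : (W.Ψ₃).eval x ≠ 0 := by
          intro hc0
          have h16 := Div.sixteen_Ψ₃_of_ψ₂_eq_zero W h.1 hη
          rw [hc0, mul_zero] at h16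
          have hwx : (W.a₁ * y - (3 * x ^ 2 + 2 * W.a₂ * x + W.a₄)) ^ 2 = 0 := by
            have h16' : (16 : K) ≠ 0 := by norm_num
            have : (-16 : K) * (W.a₁ * y - (3 * x ^ 2 + 2 * W.a₂ * x + W.a₄)) ^ 2 = 0 :=
              h16.symm
            rcases mul_eq_zero.mp this with h' | h'
            · exact absurd (neg_eq_zero.mp h') h16'
            · exact h'
          have hwx' := pow_eq_zero_iff (two_ne_zero) |>.mp hwx
          have hns := (Affine.nonsingular_iff x y).mp h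
          rcases hns.2 with h' | h'
          · exact h' (sub_eq_zero.mp hwx')
          · exact h' (by linear_combination hη)
        have := Div.period_two ((W.Ψ₃).eval x) ((W.preΨ₄).eval x) hc (n : ℤ)
        rw [Div.sq, hη]
        exact_mod_cast this
      · have hL3 : 3 ≤ L := by omega
        have hE : ∀ m n : ℤ, Div.ERel (Div.sq W x y) m n :=
          Div.ERel_int_of_nat (Div.sq_zero W x y) (Div.sq_one W x y) (Div.sq_neg W x y)
            (fun m n hn hnm => Div.ERel_sq_nat W hDP2 hΔ h.1 m n hn hnm)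
        refine Div.period_int hE (Div.sq_one W x y) (Div.sq_neg W x y) L hL3 hsL hsj ?_ (n : ℤ)
        intro hL3'
        subst hL3'
        have hs2 : Div.sq W x y 2 ≠ 0 := by
          have := hsj 2 (by norm_num) (by norm_num)
          simpa using this
        rw [Div.sq_two] at hs2
        have hs3 : (W.Ψ₃).eval x = 0 := by
          have := hsL
          simpa using this
        rw [Div.sq_four, Div.preΨ₄_of_Ψ₃_eq_zero W h.1 hs3]
        exact mul_ne_zero (neg_ne_zero.mpr (pow_ne_zero 4 hs2)) hs2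
    rw [hord, hper]
    exact Int.natCast_dvd_natCast.symm
  · simp only [not_exists, not_and] at hex
    exact ((hdp n (fun j hj0 _ => hex j hj0)).1).symm

/-- **General key**, `ΨSq` form: `n • P = 0 ↔ ΨSq_n(x_P) = 0` for every `n ≥ 1`. -/
theorem nsmul_eq_zero_iff_ΨSq (hΔ : W.Δ ≠ 0) (n : ℕ) (hn : 0 < n) {x y : K}
    (h : W.toAffine.Nonsingular x y) :
    n • (Affine.Point.some x y h) = 0 ↔ (W.ΨSq n).eval x = 0 := by
  rw [nsmul_eq_zero_iff_sq W hΔ n hn h, ← div_sq_sq W h]
  exact (pow_eq_zero_iff two_ne_zero).symm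

/-- `Φ_n` and `ΨSq_n` have no common root lying under a point of the curve. -/
theorem Φ_eval_ne_zero_of_ΨSq_eval_eq_zero (hΔ : W.Δ ≠ 0) (n : ℕ) (hn : 0 < n) {x y : K}
    (h : W.toAffine.Nonsingular x y) (h0 : (W.ΨSq n).eval x = 0) : (W.Φ n).eval x ≠ 0 := by
  set P : W.toAffine.Point := Affine.Point.some x y h with hP
  have hP0 : P ≠ 0 := Affine.Point.some_ne_zero h
  have hnP : n • P = 0 := (nsmul_eq_zero_iff_ΨSq W hΔ n hn h).mpr h0
  have hn1 : n ≠ 1 := by
    rintro rfl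
    simp at h0
  intro hΦ
  have hrel := sQ_succ_mul_pred hP0 (n : ℤ)
  have hx : DP.xc P = x := rfl
  rw [hx] at hrel
  have hΦ' : (W.Φ n).eval x = -(DP.sQ P ((n : ℤ) + 1) * DP.sQ P ((n : ℤ) - 1)) := by
    rw [hrel, WeierstrassCurve.Φ, eval_sub, eval_mul, eval_X, h0]; ring
  rw [hΦ', neg_eq_zero, mul_eq_zero] at hΦ
  rcases hΦ with h1 | h1
  · have h2 : Div.sq W x y ((n + 1 : ℕ) : ℤ) = 0 := by
      rw [DP.KeyBridge.div_sq_eq_sQ W h]; exact_mod_cast h1
    have := (nsmul_eq_zero_iff_sq W hΔ (n + 1) (by omega) h).mpr h2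
    rw [succ_nsmul, hnP, zero_add] at this
    exact hP0 this
  · have h2 : Div.sq W x y ((n - 1 : ℕ) : ℤ) = 0 := by
      rw [DP.KeyBridge.div_sq_eq_sQ W h]
      have : ((n - 1 : ℕ) : ℤ) = (n : ℤ) - 1 := by omega
      rw [this]; exact h1
    have := (nsmul_eq_zero_iff_sq W hΔ (n - 1) (by omega) h).mpr h2
    have h3 : n • P = (n - 1) • P + P := by
      rw [← succ_nsmul]; congr 1; omega
    rw [this, zero_add] at h3
    exact hP0 (h3 ▸ hnP)

end charZero

end Fermat.Agent.GE.Tors
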