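import Mathlib

/-!
# EC-TORS (5a): root multiplicities forced by a first-order ODE (characteristic zero)

If `(A' B - A B')² Ψ = c B H` with `c ≠ 0`, and `x₀` is a root of `B` with `A(x₀) ≠ 0`,
`H(x₀) ≠ 0`, then `μ = rootMultiplicity x₀ B` satisfies `2 (μ - 1) + ε = μ`,
`ε = rootMultiplicity x₀ Ψ`; hence `μ = 2` if `Ψ(x₀) ≠ 0` and `μ = 1` otherwise.
-/

set_option autoImplicit false

namespace Fermat.Agent.GE.Tors

open Polynomial

variable {K : Type*} [Field K] [CharZero K]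

/-- The Wronskian `A' B - A B'` vanishes to order exactly `μ - 1` at a root of `B` of
multiplicity `μ` where `A` does not vanish. -/
theorem wronskian_factor (A B : K[X]) (x₀ : K) (hB : B ≠ 0) (hroot : B.IsRoot x₀)
    (hA : A.eval x₀ ≠ 0) :
    ∃ r : K[X], r.eval x₀ ≠ 0 ∧
      derivative A * B - A * derivative B = (X - C x₀) ^ (B.rootMultiplicity x₀ - 1) * r := by
  obtain ⟨q, hq, hndvd⟩ := exists_eq_pow_rootMultiplicity_mul_and_not_dvd B hB x₀
  set μ := B.rootMultiplicity x₀ with hμ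
  have hμ1 : 1 ≤ μ := (rootMultiplicity_pos hB).mpr hroot
  have hq0 : q.eval x₀ ≠ 0 := by
    intro h0
    exact hndvd (dvd_iff_isRoot.mpr h0)
  obtain ⟨ν, hν⟩ : ∃ ν, μ = ν + 1 := ⟨μ - 1, by omega⟩
  refine ⟨(X - C x₀) * (derivative A * q - A * derivative q) - C ((μ : K)) * A * q, ?_, ?_⟩
  · simp only [eval_sub, eval_mul, eval_X, eval_C, sub_self, zero_mul, zero_sub, neg_ne_zero]
    exact mul_ne_zero (mul_ne_zero (Nat.cast_ne_zero.mpr (by omega)) hA) hq0
  · have hd : derivative B = C ((μ : K)) * (X - C x₀) ^ ν * q + (X - C x₀) ^ μ * derivative q := by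
      conv_lhs => rw [hq]
      rw [derivative_mul, derivative_X_sub_C_pow, hν]
      simp only [Nat.add_sub_cancel]
    rw [hd]
    conv_lhs => rw [hq]
    rw [hν]
    simp only [Nat.add_sub_cancel]
    push_cast
    ring

theorem wronskian_ne_zero (A B : K[X]) (x₀ : K) (hB : B ≠ 0) (hroot : B.IsRoot x₀)
    (hA : A.eval x₀ ≠ 0) : derivative A * B - A * derivative B ≠ 0 := by
  obtain ⟨r, hr, h⟩ := wronskian_factor A B x₀ hB hroot hA
  rw [h]
  refine mul_ne_zero (pow_ne_zero _ (X_sub_C_ne_zero x₀)) ?_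
  rintro rfl
  simp at hr

theorem rootMultiplicity_wronskian (A B : K[X]) (x₀ : K) (hB : B ≠ 0) (hroot : B.IsRoot x₀)
    (hA : A.eval x₀ ≠ 0) :
    (derivative A * B - A * derivative B).rootMultiplicity x₀ = B.rootMultiplicity x₀ - 1 := by
  obtain ⟨r, hr, h⟩ := wronskian_factor A B x₀ hB hroot hA
  have hr0 : r ≠ 0 := by rintro rfl; simp at hr
  rw [h, rootMultiplicity_mul (mul_ne_zero (pow_ne_zero _ (X_sub_C_ne_zero x₀)) hr0),
    rootMultiplicity_X_sub_C_pow, rootMultiplicity_eq_zero hr, add_zero]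

/-- **Multiplicity from the ODE.** -/
theorem rootMultiplicity_of_ode {A B Ψ H : K[X]} {c : K} (hc : c ≠ 0)
    (hode : (derivative A * B - A * derivative B) ^ 2 * Ψ = C c * B * H)
    (x₀ : K) (hB : B ≠ 0) (hroot : B.IsRoot x₀) (hA : A.eval x₀ ≠ 0) (hH : H.eval x₀ ≠ 0) :
    (Ψ.IsRoot x₀ → B.rootMultiplicity x₀ = 1) ∧ (¬ Ψ.IsRoot x₀ → B.rootMultiplicity x₀ = 2) := by
  have hH0 : H ≠ 0 := by rintro rfl; simp at hH
  have hW := wronskian_ne_zero A B x₀ hB hroot hA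
  have hR : C c * B * H ≠ 0 := mul_ne_zero (mul_ne_zero (C_ne_zero.mpr hc) hB) hH0
  have hΨ0 : Ψ ≠ 0 := by
    rintro rfl
    rw [mul_zero] at hode
    exact hR hode.symm
  have hL : (derivative A * B - A * derivative B) ^ 2 * Ψ ≠ 0 :=
    mul_ne_zero (pow_ne_zero 2 hW) hΨ0
  have h1 := congrArg (rootMultiplicity x₀) hode
  rw [rootMultiplicity_mul hL, rootMultiplicity_mul hR,
    rootMultiplicity_mul (mul_ne_zero (C_ne_zero.mpr hc) hB), rootMultiplicity_C,
    rootMultiplicity_eq_zero hH, pow_two, rootMultiplicity_mul (mul_ne_zero hW hW),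
    rootMultiplicity_wronskian A B x₀ hB hroot hA] at h1
  have hμ1 : 1 ≤ B.rootMultiplicity x₀ := (rootMultiplicity_pos hB).mpr hroot
  refine ⟨fun hΨ => ?_, fun hΨ => ?_⟩
  · have : 1 ≤ Ψ.rootMultiplicity x₀ := (rootMultiplicity_pos hΨ0).mpr hΨ
    omega
  · have : Ψ.rootMultiplicity x₀ = 0 := rootMultiplicity_eq_zero hΨ
    omega

end Fermat.Agent.GE.Tors
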