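import Fermat.Agent.GE.Tors.ODE
import Fermat.Agent.GE.Tors.Mult
import Fermat.Agent.S13.Counting

/-!
# EC-TORS (5b): `#E[n] = n²`

`K` algebraically closed of characteristic zero, `Δ ≠ 0`, `n ≥ 1`:
`Nat.card {P : W(K) // n • P = 0} = n ^ 2`.
-/

set_option autoImplicit false

namespace Fermat.Agent.GE.Tors

open WeierstrassCurve Polynomial
open Fermat.Agent.S13

universe u

variable {K : Type u} [Field K] [IsAlgClosed K] [CharZero K] [DecidableEq K]
  (W : WeierstrassCurve K)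

omit [IsAlgClosed K] [CharZero K] [DecidableEq K] in
theorem eta_sq_eq {x y : K} (h : W.toAffine.Equation x y) :
    (2 * y + W.a₁ * x + W.a₃) ^ 2 = (W.Ψ₂Sq).eval x := by
  rw [Affine.equation_iff] at h
  simp only [Ψ₂Sq, b₂, b₄, b₆, eval_add, eval_mul, eval_pow, eval_X, eval_C]
  linear_combination 4 * h

omit [CharZero K] [IsAlgClosed K] [DecidableEq K] in
theorem nonsingular_of_equation (hΔ : W.Δ ≠ 0) {x y : K} (h : W.toAffine.Equation x y) :
    W.toAffine.Nonsingular x y :=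
  (W.toAffine.equation_iff_nonsingular_of_Δ_ne_zero hΔ).mp h

omit [CharZero K] in
/-- The number of points above `x₀`. -/
theorem card_ySet (x₀ : K) :
    ((W.Ψ₂Sq).IsRoot x₀ → (Counting.ySet W.toAffine x₀).card = 1) ∧
      (¬ (W.Ψ₂Sq).IsRoot x₀ → (Counting.ySet W.toAffine x₀).card = 2) := by
  obtain ⟨y₁, hy₁⟩ := Counting.exists_equation W.toAffine x₀
  have hset : Counting.ySet W.toAffine x₀ = {y₁, W.toAffine.negY x₀ y₁} := by
    ext y
    rw [Counting.mem_ySet_iff, Finset.mem_insert, Finset.mem_singleton]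
    constructor
    · intro hy
      exact Affine.Y_eq_of_X_eq hy hy₁ rfl
    · rintro (rfl | rfl)
      · exact hy₁
      · exact (Affine.equation_neg x₀ y₁).mpr hy₁
  have hiff : y₁ = W.toAffine.negY x₀ y₁ ↔ (W.Ψ₂Sq).IsRoot x₀ := by
    rw [IsRoot.def, ← eta_sq_eq W hy₁, sq_eq_zero_iff, Affine.negY]
    constructor
    · intro h; linear_combination h
    · intro h; linear_combination h
  rw [hset]
  refine ⟨fun h => ?_, fun h => ?_⟩
  · rw [← hiff.mpr h, Finset.pair_eq_singleton, Finset.card_singleton]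
  · exact Finset.card_pair fun hy => h (hiff.mp hy)

variable {W}

omit [IsAlgClosed K] [DecidableEq K] in
theorem ΨSq_ne_zero' (n : ℕ) (hn : 1 ≤ n) : W.ΨSq n ≠ 0 :=
  W.ΨSq_ne_zero (by exact_mod_cast (Nat.cast_ne_zero (R := K)).mpr (by omega : n ≠ 0))

/-- Root multiplicities of `ΨSq_n`. -/
theorem rootMultiplicity_ΨSq (hΔ : W.Δ ≠ 0) (n : ℕ) (hn : 1 ≤ n) (x₀ : K)
    (hroot : (W.ΨSq n).IsRoot x₀) :
    ((W.Ψ₂Sq).IsRoot x₀ → (W.ΨSq n).rootMultiplicity x₀ = 1) ∧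
      (¬ (W.Ψ₂Sq).IsRoot x₀ → (W.ΨSq n).rootMultiplicity x₀ = 2) := by
  obtain ⟨y₀, hy₀⟩ := Counting.exists_equation W.toAffine x₀
  have hns := nonsingular_of_equation W hΔ hy₀
  have hA : (W.Φ n).eval x₀ ≠ 0 :=
    Φ_eval_ne_zero_of_ΨSq_eval_eq_zero W hΔ n hn hns hroot
  have hc : (n : K) ^ 2 ≠ 0 := pow_ne_zero 2 (Nat.cast_ne_zero.mpr (by omega))
  refine rootMultiplicity_of_ode hc (ode W hΔ n hn) x₀ (ΨSq_ne_zero' n hn) hroot hA ?_
  have hB0 : (W.ΨSq n).eval x₀ = 0 := hroot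
  simp only [homΨ₂Sq, eval_add, eval_mul, eval_pow, eval_C, eval_ofNat, hB0]
  simp only [ne_eq, OfNat.ofNat_ne_zero, not_false_eq_true, zero_pow, mul_zero, add_zero]
  exact mul_ne_zero (by norm_num) (pow_ne_zero 3 hA)

/-- The finite set of affine `n`-torsion points, as pairs. -/
noncomputable def torsPairs (W : WeierstrassCurve K) (n : ℕ) : Finset (Σ _ : K, K) :=
  (W.ΨSq n).roots.toFinset.sigma fun x₀ => Counting.ySet W.toAffine x₀

omit [IsAlgClosed K] in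
theorem mem_torsPairs (n : ℕ) (hn : 1 ≤ n) (s : Σ _ : K, K) :
    s ∈ torsPairs W n ↔ (W.ΨSq n).eval s.1 = 0 ∧ W.toAffine.Equation s.1 s.2 := by
  rw [torsPairs, Finset.mem_sigma, Multiset.mem_toFinset, mem_roots (ΨSq_ne_zero' n hn),
    Counting.mem_ySet_iff, IsRoot.def]

theorem card_torsPairs (hΔ : W.Δ ≠ 0) (n : ℕ) (hn : 1 ≤ n) :
    (torsPairs W n).card = n ^ 2 - 1 := by
  classical
  rw [torsPairs, Finset.card_sigma]
  have h1 : ∀ x₀ ∈ (W.ΨSq n).roots.toFinset,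
      (Counting.ySet W.toAffine x₀).card = (W.ΨSq n).roots.count x₀ := by
    intro x₀ hx₀
    rw [Multiset.mem_toFinset, mem_roots (ΨSq_ne_zero' n hn)] at hx₀
    rw [count_roots]
    by_cases h2 : (W.Ψ₂Sq).IsRoot x₀
    · rw [(rootMultiplicity_ΨSq hΔ n hn x₀ hx₀).1 h2, (card_ySet W x₀).1 h2]
    · rw [(rootMultiplicity_ΨSq hΔ n hn x₀ hx₀).2 h2, (card_ySet W x₀).2 h2]
  rw [Finset.sum_congr rfl h1, Multiset.toFinset_sum_count_eq,
    ← (IsAlgClosed.splits (W.ΨSq n)).natDegree_eq_card_roots, W.natDegree_ΨSq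
      (by exact_mod_cast (Nat.cast_ne_zero (R := K)).mpr (by omega : n ≠ 0))]
  simp

/-- `n`-torsion points correspond to `Option (torsPairs W n)`. -/
noncomputable def torsEquiv (hΔ : W.Δ ≠ 0) (n : ℕ) (hn : 1 ≤ n) :
    {P : W.toAffine.Point // n • P = 0} ≃ Option {s // s ∈ torsPairs W n} where
  toFun P := match P with
    | ⟨.zero, _⟩ => none
    | ⟨.some x y h, hP⟩ => some ⟨⟨x, y⟩, (mem_torsPairs n hn _).mpr
        ⟨(nsmul_eq_zero_iff_ΨSq W hΔ n hn h).mp hP, h.1⟩⟩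
  invFun s := match s with
    | none => ⟨0, smul_zero n⟩
    | some ⟨⟨x, y⟩, hs⟩ =>
        ⟨.some x y (nonsingular_of_equation W hΔ ((mem_torsPairs n hn _).mp hs).2),
          (nsmul_eq_zero_iff_ΨSq W hΔ n hn _).mpr ((mem_torsPairs n hn _).mp hs).1⟩
  left_inv P := by
    rcases P with ⟨_ | ⟨x, y, h⟩, hP⟩
    · rfl
    · rfl
  right_inv s := by
    rcases s with _ | ⟨⟨x, y⟩, hs⟩
    · rfl
    · rfl

/-- **EC-TORS, count**: over an algebraically closed field of characteristic zero, an elliptic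
curve has exactly `n²` points killed by `n`. -/
theorem card_torsion (hΔ : W.Δ ≠ 0) (n : ℕ) (hn : 1 ≤ n) :
    Nat.card {P : W.toAffine.Point // n • P = 0} = n ^ 2 := by
  rw [Nat.card_congr (torsEquiv hΔ n hn), Nat.card_eq_fintype_card, Fintype.card_option,
    Fintype.card_coe, card_torsPairs hΔ n hn]
  have : 1 ≤ n ^ 2 := Nat.one_le_pow _ _ (by omega)
  omega

omit [IsAlgClosed K] in
theorem finite_torsion (hΔ : W.Δ ≠ 0) (n : ℕ) (hn : 1 ≤ n) :
    Finite {P : W.toAffine.Point // n • P = 0} :=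
  Finite.of_equiv _ (torsEquiv hΔ n hn).symm

end Fermat.Agent.GE.Tors
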