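import Mathlib

/-!
# EC-TORS (1): the invariant differential is additive

`F` a field with a derivation `δ : F → F` (over any base `R`), `W` a Weierstrass curve over `F`
whose coefficients are `δ`-constants.  For an affine point `P = (x, y)` with
`u(P) := 2y + a₁x + a₃ ≠ 0` we say `HasLog δ W P c` when `δ x = u(P) * c`
(`c` is the value of the invariant differential `dx / (2y + a₁x + a₃)` along `P`).

Main results: `HasLog.neg`, `HasLog.add` (tangent case included), `HasLog.nsmul`.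
The proof differentiates Vieta's relations for the cubic `W(X, ℓX + m)`; the resulting
`3 × 3` linear system has determinant `u₁ u₂ u₃` (no big addition-formula identity).
-/

set_option autoImplicit false

namespace Fermat.Agent.GE.Tors

open WeierstrassCurve

section abstract

variable {R F : Type*} [CommRing R] [Field F] [Algebra R F] (δ : Derivation R F F)

theorem der_mul (a b : F) : δ (a * b) = a * δ b + b * δ a := by
  rw [Derivation.leibniz]; simp [smul_eq_mul]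

theorem der_sq (a : F) : δ (a ^ 2) = 2 * a * δ a := by
  rw [pow_two, der_mul]; ring

/-- **Abel's theorem, infinitesimal form.**  If `x₁, x₂, x₃` are the three roots of the cubic
`W(X, ℓ X + m)` (Vieta's relations `V1 V2 V3`), the coefficients are constants, and
`δ xᵢ = uᵢ cᵢ` with `uᵢ = (2ℓ + a₁) xᵢ + (2m + a₃) ≠ 0`, then `c₁ + c₂ + c₃ = 0`. -/
theorem collinear_log_sum {a₁ a₂ a₃ a₄ a₆ ℓ m x₁ x₂ x₃ c₁ c₂ c₃ : F}
    (h₁ : δ a₁ = 0) (h₂ : δ a₂ = 0) (h₃ : δ a₃ = 0) (h₄ : δ a₄ = 0) (h₆ : δ a₆ = 0)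
    (V1 : x₁ + x₂ + x₃ = ℓ ^ 2 + a₁ * ℓ - a₂)
    (V2 : x₁ * x₂ + x₁ * x₃ + x₂ * x₃ = -(2 * ℓ * m + a₁ * m + a₃ * ℓ - a₄))
    (V3 : x₁ * x₂ * x₃ = m ^ 2 + a₃ * m - a₆)
    (hu₁ : (2 * ℓ + a₁) * x₁ + (2 * m + a₃) ≠ 0)
    (hu₂ : (2 * ℓ + a₁) * x₂ + (2 * m + a₃) ≠ 0)
    (hu₃ : (2 * ℓ + a₁) * x₃ + (2 * m + a₃) ≠ 0)
    (hc₁ : δ x₁ = ((2 * ℓ + a₁) * x₁ + (2 * m + a₃)) * c₁)
    (hc₂ : δ x₂ = ((2 * ℓ + a₁) * x₂ + (2 * m + a₃)) * c₂)
    (hc₃ : δ x₃ = ((2 * ℓ + a₁) * x₃ + (2 * m + a₃)) * c₃) :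
    c₁ + c₂ + c₃ = 0 := by
  have D1 := congrArg δ V1
  have D2 := congrArg δ V2
  have D3 := congrArg δ V3
  simp only [map_add, map_sub, map_neg, der_mul, der_sq, h₁, h₂, h₃, h₄, h₆, hc₁, hc₂, hc₃,
    mul_zero, add_zero, sub_zero] at D1 D2 D3
  have h2 : δ (2 : F) = 0 := by
    have : (2 : F) = ((2 : ℕ) : F) := by norm_num
    rw [this, Derivation.map_natCast]
  simp only [h2, mul_zero, add_zero] at D2
  have key : ((2 * ℓ + a₁) * x₁ + (2 * m + a₃)) * ((2 * ℓ + a₁) * x₂ + (2 * m + a₃)) *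
      ((2 * ℓ + a₁) * x₃ + (2 * m + a₃)) * (c₁ + c₂ + c₃) = 0 := by
    linear_combination (2 * m + a₃) ^ 2 * D1 + (2 * ℓ + a₁) * (2 * m + a₃) * D2
      + (2 * ℓ + a₁) ^ 2 * D3
  rcases mul_eq_zero.mp key with h | h
  · exact absurd h (mul_ne_zero (mul_ne_zero hu₁ hu₂) hu₃)
  · exact h

end abstract

section curve

variable {R F : Type*} [CommRing R] [Field F] [Algebra R F] [DecidableEq F]
  (δ : Derivation R F F) (W : WeierstrassCurve.Affine F)

/-- The coefficients of `W` are constants for the derivation `δ`. -/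
structure IsConst : Prop where
  a₁ : δ W.a₁ = 0
  a₂ : δ W.a₂ = 0
  a₃ : δ W.a₃ = 0
  a₄ : δ W.a₄ = 0
  a₆ : δ W.a₆ = 0

/-- `P = (x, y)` is affine, `u(P) = 2y + a₁x + a₃ ≠ 0` and `δ x = u(P) c`, i.e. the invariant
differential `dx / (2y + a₁x + a₃)` takes the value `c` along `P`. -/
def HasLog (P : W.Point) (c : F) : Prop :=
  ∃ (x y : F) (h : W.Nonsingular x y), P = Affine.Point.some x y h ∧
    2 * y + W.a₁ * x + W.a₃ ≠ 0 ∧ δ x = (2 * y + W.a₁ * x + W.a₃) * c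

variable {δ W}

/-- For an affine point, `2 • P ≠ 0` iff `u(P) ≠ 0`. -/
theorem two_nsmul_some_ne_zero_iff {x y : F} (h : W.Nonsingular x y) :
    2 • (Affine.Point.some x y h) ≠ 0 ↔ 2 * y + W.a₁ * x + W.a₃ ≠ 0 := by
  rw [not_iff_not, two_nsmul, ← eq_neg_iff_add_eq_zero, Affine.Point.neg_some,
    Affine.Point.some.injEq]
  simp only [true_and, Affine.negY]
  constructor
  · intro h'; linear_combination h'
  · intro h'; linear_combination h'

theorem exists_some_of_two_nsmul_ne_zero {P : W.Point} (hP : 2 • P ≠ 0) :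
    ∃ (x y : F) (h : W.Nonsingular x y), P = Affine.Point.some x y h ∧
      2 * y + W.a₁ * x + W.a₃ ≠ 0 := by
  rcases P with _ | ⟨x, y, h⟩
  · exact absurd (smul_zero 2) hP
  · exact ⟨x, y, h, rfl, (two_nsmul_some_ne_zero_iff h).mp hP⟩

theorem HasLog.two_nsmul_ne_zero {P : W.Point} {c : F} (h : HasLog δ W P c) : 2 • P ≠ 0 := by
  obtain ⟨x, y, hn, rfl, hu, -⟩ := h
  exact (two_nsmul_some_ne_zero_iff hn).mpr hu

omit [DecidableEq F] in
theorem HasLog.neg {P : W.Point} {c : F} (h : HasLog δ W P c) : HasLog δ W (-P) (-c) := by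
  obtain ⟨x, y, hn, rfl, hu, hd⟩ := h
  refine ⟨x, W.negY x y, (Affine.nonsingular_neg x y).mpr hn, Affine.Point.neg_some hn, ?_, ?_⟩
  · simp only [Affine.negY]
    intro h0
    apply hu
    linear_combination -h0
  · rw [hd]
    simp only [Affine.negY]
    ring

/-- **Additivity of the invariant differential** (tangent case included). -/
theorem HasLog.add (hW : IsConst δ W) {P₁ P₂ : W.Point} {c₁ c₂ : F}
    (h₁ : HasLog δ W P₁ c₁) (h₂ : HasLog δ W P₂ c₂) (h₃ : 2 • (P₁ + P₂) ≠ 0) :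
    HasLog δ W (P₁ + P₂) (c₁ + c₂) := by
  obtain ⟨x₁, y₁, n₁, rfl, hu₁, hd₁⟩ := h₁
  obtain ⟨x₂, y₂, n₂, rfl, hu₂, hd₂⟩ := h₂
  have hxy : ¬(x₁ = x₂ ∧ y₁ = W.negY x₂ y₂) := by
    intro hxy
    rw [Affine.Point.add_of_Y_eq hxy.1 hxy.2] at h₃
    exact h₃ (smul_zero 2)
  rw [Affine.Point.add_some hxy] at h₃ ⊢
  have hu₃ := (two_nsmul_some_ne_zero_iff _).mp h₃
  refine ⟨_, _, _, rfl, hu₃, ?_⟩
  set ℓ := W.slope x₁ x₂ y₁ y₂ with hℓ
  set x₃ := W.addX x₁ x₂ ℓ with hx₃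
  set m := y₁ - ℓ * x₁ with hm
  -- Vieta
  have hV := Affine.addPolynomial_slope n₁.1 n₂.1 hxy
  rw [Affine.addPolynomial_eq, neg_inj, Cubic.prod_X_sub_C_eq, Cubic.toPoly_injective,
    Cubic.ext_iff] at hV
  obtain ⟨-, hVb, hVc, hVd⟩ := hV
  simp only at hVb hVc hVd
  rw [← hℓ] at hVb hVc hVd
  rw [← hx₃] at hVb hVc hVd
  -- the second point is on the line
  have hy₂ : y₂ = ℓ * x₂ + m := by
    by_cases hx : x₁ = x₂
    · have hy : y₁ ≠ W.negY x₂ y₂ := fun h => hxy ⟨hx, h⟩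
      have := Affine.Y_eq_of_Y_ne n₁.1 n₂.1 hx hy
      rw [hm, ← this, hx]; ring
    · rw [hm, hℓ, Affine.slope_of_X_ne hx]
      have : x₁ - x₂ ≠ 0 := sub_ne_zero.mpr hx
      field_simp
      ring
  have hy₁ : y₁ = ℓ * x₁ + m := by rw [hm]; ring
  have hy₃ : W.addY x₁ x₂ y₁ ℓ = -(ℓ * x₃ + m) - W.a₁ * x₃ - W.a₃ := by
    simp only [Affine.addY, Affine.negY, Affine.negAddY, ← hx₃, hm]
    ring
  rw [hy₃] at hu₃ ⊢
  have hu₃' : (2 * ℓ + W.a₁) * x₃ + (2 * m + W.a₃) ≠ 0 := by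
    intro h0; apply hu₃; linear_combination -h0
  have e₁ : (2 * ℓ + W.a₁) * x₁ + (2 * m + W.a₃) = 2 * y₁ + W.a₁ * x₁ + W.a₃ := by
    rw [hm]; ring
  have e₂ : (2 * ℓ + W.a₁) * x₂ + (2 * m + W.a₃) = 2 * y₂ + W.a₁ * x₂ + W.a₃ := by
    rw [hy₂]; ring
  have key := collinear_log_sum δ hW.a₁ hW.a₂ hW.a₃ hW.a₄ hW.a₆
    (ℓ := ℓ) (m := m) (x₁ := x₁) (x₂ := x₂) (x₃ := x₃) (c₁ := c₁) (c₂ := c₂)
    (c₃ := δ x₃ / ((2 * ℓ + W.a₁) * x₃ + (2 * m + W.a₃)))
    (by linear_combination hVb)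
    (by rw [hm]; linear_combination -hVc)
    (by rw [hm]; linear_combination hVd)
    (by rw [e₁]; exact hu₁) (by rw [e₂]; exact hu₂) hu₃'
    (by rw [e₁]; exact hd₁) (by rw [e₂]; exact hd₂)
    (by field_simp)
  have hc₃ : δ x₃ = -((2 * ℓ + W.a₁) * x₃ + (2 * m + W.a₃)) * (c₁ + c₂) := by
    have h' : δ x₃ / ((2 * ℓ + W.a₁) * x₃ + (2 * m + W.a₃)) = -(c₁ + c₂) := by
      linear_combination key
    rw [div_eq_iff hu₃'] at h'
    rw [h']; ring
  rw [hc₃]; ring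

/-- Multiples: if `(2k) • P ≠ 0` for `1 ≤ k ≤ n`, then `n • P` has logarithmic value `n c`. -/
theorem HasLog.nsmul (hW : IsConst δ W) {P : W.Point} {c : F} (h : HasLog δ W P c) (n : ℕ)
    (hn : 1 ≤ n) (hne : ∀ k : ℕ, 1 ≤ k → k ≤ n → (2 * k) • P ≠ 0) :
    HasLog δ W (n • P) (n * c) := by
  induction n, hn using Nat.le_induction with
  | base => simpa using h
  | succ n hn ih =>
    have ih' := ih fun k hk1 hkn => hne k hk1 (by omega)
    have h3 : 2 • (n • P + P) ≠ 0 := by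
      have := hne (n + 1) (by omega) le_rfl
      rwa [mul_smul, succ_nsmul P n] at this
    have := HasLog.add hW ih' h h3
    rw [succ_nsmul]
    convert this using 1
    push_cast; ring

end curve

end Fermat.Agent.GE.Tors
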