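import Fermat.Agent.S13.DP.Key
import Fermat.Agent.S24.Differentials
import Fermat.Agent.GE.Tors.InvDiff

/-!
# EC-TORS (2): the generic point and a derivation of the function field

`FF = K(E)` (Mathlib's `FunctionField`), generic point `G = (genX, genY)` of T13 `DivGeneric`.
In characteristic zero there is a `K`-derivation `δ` of `FF` with `δ genX ≠ 0`; for it
`HasLog δ (n • G) (n * c₀)` for all `n ≥ 1`.
-/

set_option autoImplicit false

namespace Fermat.Agent.GE.Tors

open WeierstrassCurve Polynomial
open Fermat.Agent.S13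

universe u

variable {K : Type u} [Field K] (W : WeierstrassCurve K)

local notation "FF" => W.toAffine.FunctionField

theorem algebraMap_eq_genConst : algebraMap K FF = Div.genConst W := by
  ext a
  simp [Div.genConst, Div.genHom]
  rfl

theorem algebraMap_poly_eq (p : K[X]) :
    algebraMap K[X] FF p = Div.genHom W (C p) := by
  rw [IsScalarTower.algebraMap_apply K[X] W.toAffine.CoordinateRing FF]
  rfl

theorem genX_eq : Div.genX W = algebraMap K[X] FF X := (algebraMap_poly_eq W X).symm

theorem aeval_genX (p : K[X]) : aeval (Div.genX W) p = algebraMap K[X] FF p := by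
  rw [genX_eq, aeval_algebraMap_apply, aeval_X_left_apply]

theorem algebraMap_poly_injective : Function.Injective (algebraMap K[X] FF) := by
  rw [IsScalarTower.algebraMap_eq K[X] W.toAffine.CoordinateRing FF]
  exact (IsFractionRing.injective W.toAffine.CoordinateRing FF).comp
    (FaithfulSMul.algebraMap_injective K[X] W.toAffine.CoordinateRing)

theorem transcendental_genX : Transcendental K (Div.genX W) := by
  rw [transcendental_iff_injective]
  intro p q h
  rw [aeval_genX, aeval_genX] at h
  exact algebraMap_poly_injective W h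

open IntermediateField in
theorem algebraMap_poly_mem (p : K[X]) : algebraMap K[X] FF p ∈ K⟮Div.genX W⟯ := by
  rw [← aeval_genX]
  exact IntermediateField.algebra_adjoin_le_adjoin K _ (Polynomial.aeval_mem_adjoin_singleton K _)

theorem genY_sq :
    Div.genY W ^ 2 + (algebraMap K[X] FF (C W.a₁ * X + C W.a₃)) * Div.genY W
      = algebraMap K[X] FF (X ^ 3 + C W.a₂ * X ^ 2 + C W.a₄ * X + C W.a₆) := by
  have h := Div.gen_equation W
  rw [Affine.equation_iff] at h
  simp only [Div.genCurve, WeierstrassCurve.map_a₁, WeierstrassCurve.map_a₂,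
    WeierstrassCurve.map_a₃, WeierstrassCurve.map_a₄, WeierstrassCurve.map_a₆] at h
  simp only [map_add, map_mul, map_pow, ← genX_eq, ← algebraMap_eq_genConst] at h ⊢
  have hC : ∀ a : K, algebraMap K[X] FF (C a) = algebraMap K FF a := fun a => by
    rw [← algebraMap_eq, ← IsScalarTower.algebraMap_apply]
  rw [hC, hC, hC, hC, hC]
  linear_combination h

open IntermediateField in
theorem isAlgebraic_genY : IsAlgebraic K⟮Div.genX W⟯ (Div.genY W) := by
  set L := K⟮Div.genX W⟯
  let b : L := ⟨_, algebraMap_poly_mem W (C W.a₁ * X + C W.a₃)⟩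
  let c : L := ⟨_, algebraMap_poly_mem W (X ^ 3 + C W.a₂ * X ^ 2 + C W.a₄ * X + C W.a₆)⟩
  refine ⟨X ^ 2 + C b * X - C c, ?_, ?_⟩
  · intro h0
    have := congrArg (fun p => p.coeff 2) h0
    simp at this
  · simp only [map_sub, map_add, map_mul, map_pow, aeval_X, aeval_C]
    have := genY_sq W
    change Div.genY W ^ 2 + (b : FF) * Div.genY W - (c : FF) = 0
    rw [sub_eq_zero]
    exact this

open IntermediateField in
theorem isAlgebraic_functionField : Algebra.IsAlgebraic K⟮Div.genX W⟯ FF := by
  set L := K⟮Div.genX W⟯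
  have hCR : ∀ c : W.toAffine.CoordinateRing,
      IsAlgebraic L (algebraMap W.toAffine.CoordinateRing FF c) := by
    intro c
    obtain ⟨p, q, rfl⟩ := Affine.CoordinateRing.exists_smul_basis_eq c
    rw [Affine.CoordinateRing.smul, Affine.CoordinateRing.smul, mul_one, map_add, map_mul]
    have hp : IsAlgebraic L (algebraMap W.toAffine.CoordinateRing FF
        (Affine.CoordinateRing.mk W (C p))) := by
      have : algebraMap W.toAffine.CoordinateRing FF (Affine.CoordinateRing.mk W (C p)) =
          algebraMap L FF ⟨_, algebraMap_poly_mem W p⟩ := (algebraMap_poly_eq W p).symm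
      rw [this]
      exact isAlgebraic_algebraMap _
    have hq : IsAlgebraic L (algebraMap W.toAffine.CoordinateRing FF
        (Affine.CoordinateRing.mk W (C q))) := by
      have : algebraMap W.toAffine.CoordinateRing FF (Affine.CoordinateRing.mk W (C q)) =
          algebraMap L FF ⟨_, algebraMap_poly_mem W q⟩ := (algebraMap_poly_eq W q).symm
      rw [this]
      exact isAlgebraic_algebraMap _
    exact hp.add (hq.mul (isAlgebraic_genY W))
  refine ⟨fun z => ?_⟩
  obtain ⟨a, b, hb, rfl⟩ := IsFractionRing.div_surjective (A := W.toAffine.CoordinateRing) z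
  exact (hCR a).mul (hCR b).inv

section charZero

variable [CharZero K]

/-- In characteristic zero there is a `K`-derivation of `K(E)` not killing the generic `x`. -/
theorem exists_derivation_genX_ne_zero :
    ∃ δ : Derivation K FF FF, δ (Div.genX W) ≠ 0 := by
  have hD := Fermat.Agent.S24.Diff.D_ne_zero (K := K) (F := FF) (Div.genX W)
    (transcendental_genX W) (isAlgebraic_functionField W)
  obtain ⟨f, hf⟩ := Module.Projective.exists_dual_ne_zero FF hD
  exact ⟨f.compDer (KaehlerDifferential.D K FF), hf⟩

variable [DecidableEq K]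

theorem isConst_genCurve (δ : Derivation K FF FF) : IsConst δ (Div.genCurve W).toAffine := by
  constructor <;>
  simp only [Div.genCurve, WeierstrassCurve.map_a₁, WeierstrassCurve.map_a₂,
    WeierstrassCurve.map_a₃, WeierstrassCurve.map_a₄, WeierstrassCurve.map_a₆,
    ← algebraMap_eq_genConst, Derivation.map_algebraMap]

open Classical in
/-- The generic point `G`. -/
noncomputable def genPoint (hΔ : W.Δ ≠ 0) : (Div.genCurve W).toAffine.Point :=
  Affine.Point.some _ _ (Div.gen_nonsingular W hΔ)

open Classical in
theorem genPoint_nsmul_ne_zero (hΔ : W.Δ ≠ 0) (n : ℕ) (hn : 0 < n) :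
    n • genPoint W hΔ ≠ 0 :=
  Div.gen_nsmul_ne_zero W DP.KeyBridge.dp2Statement.{u} hΔ n hn

open Classical in
/-- The invariant differential along `n • G` is `n` times the one along `G`. -/
theorem hasLog_nsmul_genPoint (hΔ : W.Δ ≠ 0) (δ : Derivation K FF FF) (n : ℕ) (hn : 1 ≤ n) :
    HasLog δ (Div.genCurve W).toAffine (n • genPoint W hΔ)
      (n * (δ (Div.genX W) /
        (2 * Div.genY W + (Div.genCurve W).a₁ * Div.genX W + (Div.genCurve W).a₃))) := by
  have hu : 2 * Div.genY W + (Div.genCurve W).a₁ * Div.genX W + (Div.genCurve W).a₃ ≠ 0 :=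
    (two_nsmul_some_ne_zero_iff (Div.gen_nonsingular W hΔ)).mp
      (genPoint_nsmul_ne_zero W hΔ 2 (by norm_num))
  refine HasLog.nsmul (isConst_genCurve W δ) ?_ n hn ?_
  · exact ⟨_, _, Div.gen_nonsingular W hΔ, rfl, hu, by field_simp⟩
  · intro k hk _
    exact genPoint_nsmul_ne_zero W hΔ (2 * k) (by omega)

end charZero

end Fermat.Agent.GE.Tors
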