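import Fermat.Agent.GE.Tors.Generic
import Fermat.Agent.GE.Tors.KeyAll

/-!
# EC-TORS (4): the differential equation of the multiplication-by-`n` map

In characteristic zero, with `Δ ≠ 0`, for every `n ≥ 1` the polynomials `A = Φ_n`, `B = ΨSq_n`
satisfy

  `(A' B - A B')² Ψ₂Sq = n² B (4A³ + b₂ A² B + 2 b₄ A B² + b₆ B³)`

(the square of `[n]^* ω = n ω` for the invariant differential `ω = dx / (2y + a₁x + a₃)`).
-/

set_option autoImplicit false

namespace Fermat.Agent.GE.Tors

open WeierstrassCurve Polynomial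
open Fermat.Agent.S13

universe u

variable {K : Type u} [Field K] [CharZero K] [DecidableEq K] (W : WeierstrassCurve K)

local notation "FF" => W.toAffine.FunctionField

/-- the homogenised `Ψ₂Sq`: `B³ Ψ₂Sq(A / B)`. -/
noncomputable def homΨ₂Sq (A B : K[X]) : K[X] :=
  4 * A ^ 3 + C W.b₂ * A ^ 2 * B + 2 * C W.b₄ * A * B ^ 2 + C W.b₆ * B ^ 3

omit [CharZero K] [DecidableEq K] in
theorem eval_genCurve_poly (p : K[X]) :
    (p.map (Div.genConst W)).eval (Div.genX W) = aeval (Div.genX W) p := by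
  rw [eval_map, aeval_def, algebraMap_eq_genConst]

omit [CharZero K] [DecidableEq K] in
theorem aeval_Ψ₂Sq (z : FF) :
    ((Div.genCurve W).Ψ₂Sq).eval z =
      4 * z ^ 3 + algebraMap K FF W.b₂ * z ^ 2 + 2 * algebraMap K FF W.b₄ * z
        + algebraMap K FF W.b₆ := by
  simp only [Ψ₂Sq, Div.genCurve, WeierstrassCurve.map_b₂, WeierstrassCurve.map_b₄,
    WeierstrassCurve.map_b₆, ← algebraMap_eq_genConst]
  simp

open Classical in
/-- **The ODE**, as a polynomial identity. -/
theorem ode (hΔ : W.Δ ≠ 0) (n : ℕ) (hn : 1 ≤ n) :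
    (derivative (W.Φ n) * W.ΨSq n - W.Φ n * derivative (W.ΨSq n)) ^ 2 * W.Ψ₂Sq =
      C ((n : K) ^ 2) * W.ΨSq n * homΨ₂Sq W (W.Φ n) (W.ΨSq n) := by
  obtain ⟨δ, hδ⟩ := exists_derivation_genX_ne_zero W
  set x := Div.genX W with hx
  set y := Div.genY W with hy
  -- the logarithmic value along `n • G`
  obtain ⟨xn, yn, hnn, hnG, hun, hdn⟩ := hasLog_nsmul_genPoint W hΔ δ n hn
  have hG0 : genPoint W hΔ ≠ 0 := by
    have := genPoint_nsmul_ne_zero W hΔ 1 one_pos
    rwa [one_smul] at this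
  have hu : 2 * y + (Div.genCurve W).a₁ * x + (Div.genCurve W).a₃ ≠ 0 :=
    (two_nsmul_some_ne_zero_iff (Div.gen_nonsingular W hΔ)).mp
      (genPoint_nsmul_ne_zero W hΔ 2 (by norm_num))
  -- the `x`-coordinate formula
  obtain ⟨hb0, hab⟩ := xc_nsmul_mul_ΨSq (W := (Div.genCurve W).toAffine) hG0 n hn
    (fun j hj _ => genPoint_nsmul_ne_zero W hΔ j hj)
  have hxG : DP.xc (genPoint W hΔ) = x := rfl
  rw [hnG, DP.xc_some, hxG, Div.genCurve, WeierstrassCurve.map_ΨSq,
    WeierstrassCurve.map_Φ, eval_genCurve_poly, eval_genCurve_poly] at hab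
  rw [hxG, Div.genCurve, WeierstrassCurve.map_ΨSq, eval_genCurve_poly] at hb0
  set a := aeval x (W.Φ n) with ha
  set b := aeval x (W.ΨSq n) with hb
  -- differentiate `xn * b = a`
  have hda : δ a = aeval x (derivative (W.Φ n)) * δ x := by
    rw [ha, Derivation.comp_aeval_eq, smul_eq_mul]
  have hdb : δ b = aeval x (derivative (W.ΨSq n)) * δ x := by
    rw [hb, Derivation.comp_aeval_eq, smul_eq_mul]
  have hd := congrArg δ hab
  rw [der_mul, hda, hdb, hdn] at hd
  -- squares of the `u`'s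
  have hu2 : (2 * y + (Div.genCurve W).a₁ * x + (Div.genCurve W).a₃) ^ 2 = aeval x W.Ψ₂Sq := by
    have := DP.eta_sq' (W := (Div.genCurve W).toAffine) hG0
    rw [hxG] at this
    have he : DP.eta (genPoint W hΔ) = 2 * y + (Div.genCurve W).a₁ * x + (Div.genCurve W).a₃ := by
      change y - (Div.genCurve W).toAffine.negY x y = _
      simp only [Affine.negY]; ring
    rw [he] at this
    rw [this, Div.genCurve, WeierstrassCurve.map_Ψ₂Sq, eval_genCurve_poly]
  have hun2 : (2 * yn + (Div.genCurve W).a₁ * xn + (Div.genCurve W).a₃) ^ 2 = ((Div.genCurve W).Ψ₂Sq).eval xn := by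
    have hQ : (Affine.Point.some xn yn hnn : (Div.genCurve W).toAffine.Point) ≠ 0 :=
      Affine.Point.some_ne_zero hnn
    have := DP.eta_sq' (W := (Div.genCurve W).toAffine) hQ
    rw [DP.xc_some] at this
    have he : DP.eta (Affine.Point.some xn yn hnn : (Div.genCurve W).toAffine.Point)
        = 2 * yn + (Div.genCurve W).a₁ * xn + (Div.genCurve W).a₃ := by
      change yn - (Div.genCurve W).toAffine.negY xn yn = _
      simp only [Affine.negY]; ring
    rw [he] at this
    exact this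
  rw [aeval_Ψ₂Sq] at hun2
  -- the identity in `FF`
  set A' := aeval x (derivative (W.Φ n)) with hA'
  set B' := aeval x (derivative (W.ΨSq n)) with hB'
  set u := 2 * y + (Div.genCurve W).a₁ * x + (Div.genCurve W).a₃ with hudef
  set un := 2 * yn + (Div.genCurve W).a₁ * xn + (Div.genCurve W).a₃ with hundef
  have hinv : u * u⁻¹ = 1 := mul_inv_cancel₀ hu
  have e1 : δ x * (xn * B' + b * (un * ((n : FF) / u)) - A') = 0 := by
    linear_combination hd
  have e2 : xn * B' + b * (un * ((n : FF) / u)) - A' = 0 :=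
    (mul_eq_zero.mp e1).resolve_left hδ
  have h1 : b ^ 2 * (un * n) = (A' * b - a * B') * u := by
    linear_combination (u * b) * e2 - (B' * u) * hab - (b ^ 2 * un * n) * hinv
  have e4 : b ^ 3 * un ^ 2 = 4 * a ^ 3 + algebraMap K FF W.b₂ * a ^ 2 * b
        + 2 * algebraMap K FF W.b₄ * a * b ^ 2 + algebraMap K FF W.b₆ * b ^ 3 := by
    rw [hun2, ← hab]; ring
  have h1sq : (b ^ 2 * (un * n)) ^ 2 = ((A' * b - a * B') * u) ^ 2 := by rw [h1]
  have key : (A' * b - a * B') ^ 2 * aeval x W.Ψ₂Sq =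
      (algebraMap K FF n) ^ 2 * b * (4 * a ^ 3 + algebraMap K FF W.b₂ * a ^ 2 * b
        + 2 * algebraMap K FF W.b₄ * a * b ^ 2 + algebraMap K FF W.b₆ * b ^ 3) := by
    have hn' : (algebraMap K FF (n : K)) = (n : FF) := map_natCast _ n
    rw [hn']
    linear_combination (-1 : FF) * h1sq - (A' * b - a * B') ^ 2 * hu2 + (n : FF) ^ 2 * b * e4
  -- descend to `K[X]`
  apply (transcendental_iff_injective.mp (transcendental_genX W))
  simp only [map_mul, map_pow, map_sub, homΨ₂Sq, map_add, aeval_C, map_ofNat]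
  rw [← hx, ← ha, ← hb]
  rw [key]

end Fermat.Agent.GE.Tors
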